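/-
S25/U1: expansion of functions in a uniformiser at a place.
-/
import Fermat.Agent.Jac.Base
import Fermat.Agent.MCurve.PlaceBasics
import Mathlib.RingTheory.PowerSeries.Trunc

set_option autoImplicit false

noncomputable section

namespace Fermat.Agent.Jac.FromCurve

open AlgebraicCurve Fermat.Agent.MCurve Polynomial

variable {k F : Type*} [Field k] [IsAlgClosed k] [Field F] [Algebra k F] (v : Place k F)
  [v.FiniteResidue] {π : F} (hπ : v.ord π = 1)

include hπ in
omit [IsAlgClosed k] [v.FiniteResidue] in
theorem uniformiser_ne_zero : π ≠ 0 := fun h => by simp [h] at hπ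

include hπ in
omit [IsAlgClosed k] [v.FiniteResidue] in
theorem uniformiser_mem : π ∈ v.toValuationSubring :=
  (mem_iff_ord_nonneg v (uniformiser_ne_zero v hπ)).mpr (by omega)

/-- The uniformiser in the valuation ring. -/
def unif : v.toValuationSubring := ⟨π, uniformiser_mem v hπ⟩

include hπ in
omit [IsAlgClosed k] [v.FiniteResidue] in
theorem unif_dvd_iff (n : ℕ) {f : v.toValuationSubring} (hf : f ≠ 0) :
    unif v hπ ^ n ∣ f ↔ (n : ℤ) ≤ v.ord (f : F) := by
  have hf' : (f : F) ≠ 0 := fun h => hf (Subtype.ext h)
  have hπ0 := pow_ne_zero n (uniformiser_ne_zero v hπ)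
  constructor
  · rintro ⟨g, hg⟩
    have hg' : (f : F) = π ^ n * g := congrArg Subtype.val hg
    have hg0 : (g : F) ≠ 0 := fun h => hf' (by rw [hg', h, mul_zero])
    have := ord_nonneg_of_mem' v g.2
    rw [hg', v.ord_mul hπ0 hg0, ord_pow, hπ]
    omega
  · intro h
    refine ⟨⟨(f : F) / π ^ n, (mem_iff_ord_nonneg v (div_ne_zero hf' hπ0)).mpr ?_⟩,
      Subtype.ext (mul_div_cancel₀ _ hπ0).symm⟩
    rw [div_eq_mul_inv, v.ord_mul hf' (inv_ne_zero hπ0), v.ord_inv, ord_pow, hπ]
    omega

include hπ in
theorem exists_step (f : v.toValuationSubring) :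
    ∃ a : k, unif v hπ ∣ f - algebraMap k v.toValuationSubring a := by
  haveI := (‹v.FiniteResidue›).finite
  obtain ⟨a, ha⟩ := exists_value v f.2
  refine ⟨a, ?_⟩
  rcases eq_or_ne (f - algebraMap k v.toValuationSubring a) 0 with h | h
  · rw [h]; exact dvd_zero _
  · rw [← pow_one (unif v hπ), unif_dvd_iff v hπ 1 h]
    rcases ha with ha | ha
    · exact absurd (Subtype.ext (by simp [ha])) h
    · show (1 : ℤ) ≤ v.ord ((f : F) - algebraMap k F a)
      omega

include hπ in
omit [IsAlgClosed k] [v.FiniteResidue] in
theorem eq_zero_of_unif_dvd {a : k} (h : unif v hπ ∣ algebraMap k v.toValuationSubring a) :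
    a = 0 := by
  by_contra ha
  have hne : algebraMap k v.toValuationSubring a ≠ 0 := fun h0 =>
    ha ((map_eq_zero (algebraMap k F)).mp (congrArg Subtype.val h0))
  rw [← pow_one (unif v hπ), unif_dvd_iff v hπ 1 hne, v.coe_algebraMap, ord_algebraMap] at h
  omega

/-- A series approximates a function. -/
def Approx (f : v.toValuationSubring) (P : PowerSeries k) : Prop :=
  ∀ n, unif v hπ ^ n ∣ f - aeval (unif v hπ) (PowerSeries.trunc n P)

include hπ in
omit [IsAlgClosed k] [v.FiniteResidue] in
theorem Approx.unique {f : v.toValuationSubring} {P Q : PowerSeries k} (hP : Approx v hπ f P)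
    (hQ : Approx v hπ f Q) : P = Q := by
  ext n
  induction n using Nat.strong_induction_on with
  | _ n ih =>
    have h := dvd_sub (hQ (n + 1)) (hP (n + 1))
    rw [sub_sub_sub_cancel_left, ← map_sub] at h
    have he : PowerSeries.trunc (n + 1) P - PowerSeries.trunc (n + 1) Q =
        monomial n (PowerSeries.coeff n P - PowerSeries.coeff n Q) := by
      ext i
      rw [coeff_sub, PowerSeries.coeff_trunc, PowerSeries.coeff_trunc, coeff_monomial]
      rcases lt_trichotomy i n with hi | rfl | hi
      · rw [if_pos (by omega), if_pos (by omega), if_neg (by omega), ih i hi, sub_self]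
      · rw [if_pos (by omega), if_pos (by omega), if_pos rfl]
      · rw [if_neg (by omega), if_neg (by omega), if_neg (by omega), sub_self]
    rw [he, aeval_monomial, pow_succ', mul_dvd_mul_iff_right (pow_ne_zero n fun h0 =>
      uniformiser_ne_zero v hπ (congrArg Subtype.val h0))] at h
    exact sub_eq_zero.mp (eq_zero_of_unif_dvd v hπ h)

include hπ in
theorem exists_approx_series (f : v.toValuationSubring) : ∃ P, Approx v hπ f P := by
  choose a g hg using exists_step v hπ
  let it : ℕ → v.toValuationSubring := fun n => g^[n] f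
  refine ⟨PowerSeries.mk fun n => a (it n), fun n => ⟨it n, ?_⟩⟩
  induction n with
  | zero => simp [it]
  | succ n ih =>
    rw [PowerSeries.trunc_succ, map_add, aeval_monomial, PowerSeries.coeff_mk, ← sub_sub, ih,
      show it (n + 1) = g (it n) from Function.iterate_succ_apply' g n f, pow_succ, mul_assoc, ← hg]
    ring

include hπ in
omit [IsAlgClosed k] [v.FiniteResidue] in
theorem Approx.add {f f' : v.toValuationSubring} {P Q : PowerSeries k} (hP : Approx v hπ f P)
    (hQ : Approx v hπ f' Q) : Approx v hπ (f + f') (P + Q) := fun n => by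
  rw [map_add, map_add, add_sub_add_comm]
  exact dvd_add (hP n) (hQ n)

include hπ in
omit [IsAlgClosed k] [v.FiniteResidue] in
theorem Approx.mul {f f' : v.toValuationSubring} {P Q : PowerSeries k} (hP : Approx v hπ f P)
    (hQ : Approx v hπ f' Q) : Approx v hπ (f * f') (P * Q) := fun n => by
  set p := PowerSeries.trunc n P
  set q := PowerSeries.trunc n Q
  have h1 : (X : k[X]) ^ n ∣ p * q - PowerSeries.trunc n (P * Q) :=
    X_pow_dvd_iff.mpr fun d hd => by
      rw [coeff_sub, ← PowerSeries.trunc_trunc_mul_trunc, PowerSeries.coeff_trunc, if_pos hd,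
        ← Polynomial.coe_mul, Polynomial.coeff_coe, sub_self]
  have h2 := map_dvd (aeval (R := k) (unif v hπ)) h1
  rw [map_pow, aeval_X, map_sub, map_mul] at h2
  rw [show f * f' - aeval (unif v hπ) (PowerSeries.trunc n (P * Q)) =
    (f - aeval (unif v hπ) p) * f' + aeval (unif v hπ) p * (f' - aeval (unif v hπ) q) +
      (aeval (unif v hπ) p * aeval (unif v hπ) q -
        aeval (unif v hπ) (PowerSeries.trunc n (P * Q))) by ring]
  exact dvd_add (dvd_add (dvd_mul_of_dvd_left (hP n) _) (dvd_mul_of_dvd_right (hQ n) _)) h2

include hπ in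
omit [IsAlgClosed k] [v.FiniteResidue] in
theorem approx_const (r : k) :
    Approx v hπ (algebraMap k v.toValuationSubring r) (PowerSeries.C r) := fun n => by
  cases n with
  | zero => simp
  | succ n => rw [PowerSeries.trunc_C, aeval_C, sub_self]; exact dvd_zero _

/-- The expansion in a uniformiser. -/
def taylor : v.toValuationSubring →ₐ[k] PowerSeries k where
  toFun f := (exists_approx_series v hπ f).choose
  map_one' := Approx.unique v hπ (exists_approx_series v hπ 1).choose_spec (by
    simpa using approx_const v hπ 1)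
  map_mul' f f' := Approx.unique v hπ (exists_approx_series v hπ (f * f')).choose_spec
    (Approx.mul v hπ (exists_approx_series v hπ f).choose_spec
      (exists_approx_series v hπ f').choose_spec)
  map_zero' := Approx.unique v hπ (exists_approx_series v hπ 0).choose_spec (by
    simpa using approx_const v hπ 0)
  map_add' f f' := Approx.unique v hπ (exists_approx_series v hπ (f + f')).choose_spec
    (Approx.add v hπ (exists_approx_series v hπ f).choose_spec
      (exists_approx_series v hπ f').choose_spec)
  commutes' r := Approx.unique v hπ (exists_approx_series v hπ _).choose_spec (approx_const v hπ r)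

include hπ in
theorem taylor_unif : taylor v hπ (unif v hπ) = PowerSeries.X :=
  Approx.unique v hπ (exists_approx_series v hπ _).choose_spec fun n => by
    rcases n with _ | _ | n
    · simp
    · simp [PowerSeries.trunc_succ, PowerSeries.coeff_zero_eq_constantCoeff]
    · rw [PowerSeries.trunc_X, aeval_X, sub_self]; exact dvd_zero _

include hπ in
theorem unif_dvd_iff_constantCoeff (f : v.toValuationSubring) :
    unif v hπ ∣ f ↔ PowerSeries.constantCoeff (taylor v hπ f) = 0 := by
  have h := (exists_approx_series v hπ f).choose_spec 1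
  rw [pow_one, PowerSeries.trunc_succ, PowerSeries.trunc_zero', zero_add, aeval_monomial, pow_zero,
    mul_one, PowerSeries.coeff_zero_eq_constantCoeff] at h
  change unif v hπ ∣ f - algebraMap k _ (PowerSeries.constantCoeff (taylor v hπ f)) at h
  refine ⟨fun hf => eq_zero_of_unif_dvd v hπ ?_, fun h0 => ?_⟩
  · simpa using dvd_sub hf h
  · rwa [h0, map_zero, sub_zero] at h

include hπ in
theorem taylor_injective : Function.Injective (taylor v hπ) := by
  refine (injective_iff_map_eq_zero _).mpr fun f hf => ?_
  by_contra hne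
  have h := (exists_approx_series v hπ f).choose_spec
  rw [show (exists_approx_series v hπ f).choose = 0 from hf] at h
  have hn := h ((v.ord (f : F)).toNat + 1)
  rw [map_zero, map_zero, sub_zero, unif_dvd_iff v hπ _ hne] at hn
  omega

include hπ in
theorem laurent_injective :
    Function.Injective ((HahnSeries.ofPowerSeries ℤ k).comp (taylor v hπ).toRingHom) :=
  HahnSeries.ofPowerSeries_injective.comp (taylor_injective v hπ)

/-- The expansion of all functions. -/
def laurent : F →ₐ[k] LaurentSeries k where
  toRingHom := IsFractionRing.lift (laurent_injective v hπ)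
  commutes' r := by
    show IsFractionRing.lift _ (algebraMap k F r) = _
    rw [show algebraMap k F r = algebraMap v.toValuationSubring F (algebraMap k _ r) from
      (v.coe_algebraMap r).symm, IsFractionRing.lift_algebraMap]
    show HahnSeries.ofPowerSeries ℤ k (taylor v hπ (algebraMap k _ r)) = _
    rw [AlgHom.commutes, PowerSeries.algebraMap_eq, HahnSeries.ofPowerSeries_C,
      HahnSeries.algebraMap_apply]
    rfl

include hπ in
theorem laurent_coe (f : v.toValuationSubring) :
    laurent v hπ (f : F) = HahnSeries.ofPowerSeries ℤ k (taylor v hπ f) :=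
  IsFractionRing.lift_algebraMap (laurent_injective v hπ) f

include hπ in
theorem laurent_unif_zpow (n : ℤ) : laurent v hπ (π ^ n) = HahnSeries.single n 1 := by
  have h1 : laurent v hπ π = HahnSeries.single 1 1 := by
    exact (laurent_coe v hπ (unif v hπ)).trans (by rw [taylor_unif, HahnSeries.ofPowerSeries_X])
  rw [map_zpow₀, h1]
  exact (RatFunc.single_zpow n).symm

include hπ in
/-- The expansion starts at the order. -/
theorem coeff_laurent {f : F} (hf : f ≠ 0) :
    (∀ i < v.ord f, (laurent v hπ f).coeff i = 0) ∧ (laurent v hπ f).coeff (v.ord f) ≠ 0 := by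
  have hπ0 := uniformiser_ne_zero v hπ
  set n := v.ord f
  have hu0 : f / π ^ n ≠ 0 := div_ne_zero hf (zpow_ne_zero n hπ0)
  have hord : v.ord (f / π ^ n) = 0 := by
    rw [div_eq_mul_inv, v.ord_mul hf (inv_ne_zero (zpow_ne_zero n hπ0)), v.ord_inv, v.ord_zpow, hπ]
    simp [n]
  set u : v.toValuationSubring := ⟨f / π ^ n, (mem_iff_ord_nonneg v hu0).mpr hord.ge⟩
  have hc : PowerSeries.constantCoeff (taylor v hπ u) ≠ 0 := fun h => by
    rw [← unif_dvd_iff_constantCoeff, ← pow_one (unif v hπ),
      unif_dvd_iff v hπ 1 fun e => hu0 (congrArg Subtype.val e)] at h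
    have : v.ord ((u : v.toValuationSubring) : F) = 0 := hord
    omega
  have he : laurent v hπ f =
      HahnSeries.ofPowerSeries ℤ k (taylor v hπ u) * HahnSeries.single n 1 := by
    rw [← laurent_coe, ← laurent_unif_zpow v hπ, ← map_mul]
    exact congrArg _ (div_mul_cancel₀ _ (zpow_ne_zero n hπ0)).symm
  have hcoeff : ∀ i, (laurent v hπ f).coeff (i + n) =
      (HahnSeries.ofPowerSeries ℤ k (taylor v hπ u)).coeff i := fun i => by
    rw [he, HahnSeries.coeff_mul_single_add, mul_one]
  constructor
  · intro i hi
    have := hcoeff (i - n)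
    rw [sub_add_cancel] at this
    rw [this, HahnSeries.ofPowerSeries_apply, HahnSeries.embDomain_of_notMem_range]
    rintro ⟨m, hm⟩
    simp at hm
    omega
  · have := hcoeff 0
    rw [zero_add] at this
    rw [this, show (0 : ℤ) = ((0 : ℕ) : ℤ) from rfl, HahnSeries.ofPowerSeries_apply_coeff,
      PowerSeries.coeff_zero_eq_constantCoeff]
    exact hc

end Fermat.Agent.Jac.FromCurve
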