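/-
S25/U1: the local rings of a smooth algebra of relative dimension one over an algebraically closed field.
-/
import Mathlib.RingTheory.Smooth.StandardSmoothCotangent
import Mathlib.RingTheory.DiscreteValuationRing.TFAE
import Mathlib.RingTheory.Jacobson.Ring
import Mathlib.RingTheory.Localization.AtPrime.Basic
import Mathlib.RingTheory.Ideal.Cotangent
import Mathlib.FieldTheory.IsAlgClosed.Basic
import Mathlib.RingTheory.Nakayama
import Mathlib.RingTheory.Localization.Submodule

set_option autoImplicit false

noncomputable section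

namespace Fermat.Agent.Jac

variable (k : Type*) [Field k] [IsAlgClosed k] {B : Type*} [CommRing B] [Algebra k B]

theorem exists_sub_mem_of_isMaximal [Algebra.FiniteType k B] (P : Ideal B) [P.IsMaximal] (b : B) :
    ∃ r : k, b - algebraMap k B r ∈ P := by
  letI := Ideal.Quotient.field P
  haveI : Module.Finite k (B ⧸ P) := finite_of_finite_type_of_isJacobsonRing k (B ⧸ P)
  obtain ⟨r, hr⟩ := (IsAlgClosed.algebraMap_bijective_of_isIntegral (k := k) (K := B ⧸ P)).surjective
    (Ideal.Quotient.mk P b)
  exact ⟨r, Ideal.Quotient.eq.mp hr.symm⟩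

theorem exists_le_span_sup_sq [Algebra.IsStandardSmoothOfRelativeDimension 1 k B] [Nontrivial B]
    (P : Ideal B) [P.IsMaximal] : ∃ π : B, π ∈ P ∧ P ≤ Ideal.span {π} ⊔ P ^ 2 := by
  haveI : Algebra.IsStandardSmooth k B :=
    Algebra.IsStandardSmoothOfRelativeDimension.isStandardSmooth 1
  haveI : Algebra.FiniteType k B := inferInstance
  choose r hr using exists_sub_mem_of_isMaximal k P
  have hP1 : ∀ a : k, algebraMap k B a ∈ P → a = 0 := fun a ha => by
    by_contra h
    exact ‹P.IsMaximal›.ne_top (Ideal.eq_top_of_isUnit_mem _ ha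
      ((IsUnit.mk0 a h).map (algebraMap k B)))
  have huniq : ∀ b a, b - algebraMap k B a ∈ P → r b = a := fun b a h => sub_eq_zero.mp (hP1 _ (by
    have := sub_mem h (hr b)
    rwa [sub_sub_sub_cancel_left, ← map_sub] at this))
  let δ : B → P := fun b => ⟨b - algebraMap k B (r b), hr b⟩
  let D : Derivation k B P.Cotangent := Derivation.mk'
    { toFun := fun b => P.toCotangent (δ b)
      map_add' := fun b c => by
        rw [← map_add]
        refine congrArg _ (Subtype.ext ?_)
        show b + c - algebraMap k B (r (b + c)) =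
          (b - algebraMap k B (r b)) + (c - algebraMap k B (r c))
        rw [huniq (b + c) (r b + r c) (by
          rw [map_add, add_sub_add_comm]; exact add_mem (hr b) (hr c)), map_add]
        ring
      map_smul' := fun a b => by
        rw [RingHom.id_apply, ← algebraMap_smul B a (P.toCotangent (δ b)), ← map_smul]
        refine congrArg _ (Subtype.ext ?_)
        show a • b - algebraMap k B (r (a • b)) = algebraMap k B a * (b - algebraMap k B (r b))
        rw [huniq (a • b) (a * r b) (by
          rw [map_mul, Algebra.smul_def, ← mul_sub]; exact P.mul_mem_left _ (hr b)),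
          Algebra.smul_def, map_mul]
        ring }
    fun b c => by
      show P.toCotangent (δ (b * c)) = b • P.toCotangent (δ c) + c • P.toCotangent (δ b)
      rw [← map_smul, ← map_smul, ← map_add, Ideal.toCotangent_eq]
      show b * c - algebraMap k B (r (b * c)) -
        (b * (c - algebraMap k B (r c)) + c * (b - algebraMap k B (r b))) ∈ P ^ 2
      rw [huniq (b * c) (r b * r c) (by
        rw [show b * c - algebraMap k B (r b * r c) = b * (c - algebraMap k B (r c)) +
          algebraMap k B (r c) * (b - algebraMap k B (r b)) by rw [map_mul]; ring]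
        exact add_mem (P.mul_mem_left _ (hr c)) (P.mul_mem_left _ (hr b))),
        show b * c - algebraMap k B (r b * r c) -
          (b * (c - algebraMap k B (r c)) + c * (b - algebraMap k B (r b))) =
          -((b - algebraMap k B (r b)) * (c - algebraMap k B (r c))) by rw [map_mul]; ring, sq]
      exact neg_mem (Ideal.mul_mem_mul (hr b) (hr c))
  obtain ⟨b⟩ : Nonempty (Module.Basis Unit B Ω[B⁄k]) := by
    obtain ⟨ω⟩ := Module.Free.exists_basis (R := B) (M := Ω[B⁄k])
    have h := (Algebra.IsStandardSmoothOfRelativeDimension.rank_kaehlerDifferential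
      (R := k) (S := B) 1)
    rw [← ω.2.mk_eq_rank''] at h
    obtain ⟨hu, _⟩ := (Cardinal.eq_one_iff_unique.mp (by simpa using h) :
      Subsingleton ω.1 ∧ Nonempty ω.1)
    haveI := uniqueOfSubsingleton (Classical.arbitrary ω.1)
    exact ⟨ω.2.reindex (Equiv.ofUnique _ _)⟩
  obtain ⟨π, hπ⟩ := P.toCotangent_surjective (D.liftKaehlerDifferential (b ()))
  refine ⟨π, π.2, fun a ha => ?_⟩
  have hDa : D a = P.toCotangent ⟨a, ha⟩ := by
    show P.toCotangent (δ a) = _
    refine congrArg _ (Subtype.ext ?_)
    show a - algebraMap k B (r a) = a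
    rw [huniq a 0 (by simpa using ha), map_zero, sub_zero]
  have hrep := b.sum_repr (KaehlerDifferential.D k B a)
  rw [Fintype.sum_unique] at hrep
  have h : P.toCotangent ⟨a, ha⟩ = P.toCotangent (b.repr (KaehlerDifferential.D k B a) () • π) := by
    rw [map_smul, hπ, ← map_smul, ← hDa, ← D.liftKaehlerDifferential_comp_D a]
    exact congrArg _ hrep.symm
  rw [Ideal.toCotangent_eq] at h
  set c := b.repr (KaehlerDifferential.D k B a) ()
  rw [show a = c * (π : B) + (a - c * (π : B)) by ring]
  exact add_mem (Ideal.mem_sup_left (Ideal.mem_span_singleton'.mpr ⟨c, rfl⟩))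
    (Ideal.mem_sup_right h)

/-- Two functions compare at a closed point of a smooth curve. -/
theorem exists_dvd_or_dvd [IsDomain B] [Algebra.IsStandardSmoothOfRelativeDimension 1 k B]
    (P : Ideal B) [P.IsMaximal] (a c : B) :
    ∃ s ∉ P, ∃ e : B, s * a = e * c ∨ s * c = e * a := by
  haveI : Algebra.IsStandardSmooth k B :=
    Algebra.IsStandardSmoothOfRelativeDimension.isStandardSmooth 1
  haveI : Algebra.FiniteType k B := inferInstance
  haveI := Algebra.FiniteType.isNoetherianRing k B
  obtain ⟨π, hπ, hle⟩ := exists_le_span_sup_sq k P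
  set L := Localization.AtPrime P
  haveI : IsDomain L := IsLocalization.isDomain_localization (P.primeCompl_le_nonZeroDivisors)
  set M := IsLocalRing.maximalIdeal L
  have hM : P.map (algebraMap B L) = M := Localization.AtPrime.map_eq_maximalIdeal
  have h1 : M ≤ Ideal.span {algebraMap B L π} ⊔ M • M := by
    conv_lhs => rw [← hM]
    refine (Ideal.map_mono hle).trans ?_
    rw [Ideal.map_sup, Ideal.map_span, Set.image_singleton, Ideal.map_pow, hM, sq, smul_eq_mul]
  have h2 : M ≤ Ideal.span {algebraMap B L π} :=
    Submodule.le_of_le_smul_of_le_jacobson_bot (IsNoetherian.noetherian M)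
      (IsLocalRing.maximalIdeal_le_jacobson _) h1
  haveI : M.IsPrincipal := ⟨⟨algebraMap B L π, le_antisymm h2
    ((Ideal.span_singleton_le_iff_mem M).mpr (by rw [← hM]; exact Ideal.mem_map_of_mem _ hπ))⟩⟩
  haveI : ValuationRing L :=
    ((tfae_of_isNoetherianRing_of_isLocalRing_of_isDomain L).out 4 1).mp ‹M.IsPrincipal›
  obtain ⟨q, hq | hq⟩ := ValuationRing.cond (algebraMap B L a) (algebraMap B L c) <;>
    obtain ⟨⟨e, s⟩, rfl⟩ := IsLocalization.mk'_surjective P.primeCompl q
  · refine ⟨s, s.2, e, Or.inr (IsLocalization.injective L P.primeCompl_le_nonZeroDivisors ?_)⟩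
    rw [map_mul, map_mul, ← hq, mul_left_comm, IsLocalization.mk'_spec'_mk, mul_comm]
  · refine ⟨s, s.2, e, Or.inl (IsLocalization.injective L P.primeCompl_le_nonZeroDivisors ?_)⟩
    rw [map_mul, map_mul, ← hq, mul_left_comm, IsLocalization.mk'_spec'_mk, mul_comm]

end Fermat.Agent.Jac
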