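/-
S25/U1: places of the function field and points of the curve.
-/
import Fermat.Agent.Jac.FromCurve.Dvr
import Fermat.Agent.AbVar.Scheme.Dim
import Fermat.Agent.MCurve.RiemannRoch.Curve

set_option autoImplicit false

noncomputable section

universe u

open CategoryTheory CategoryTheory.Limits AlgebraicGeometry NeronModelInfra AlgebraicCurve

namespace Fermat.Agent.Jac.FromCurve

open Fermat.Agent.AbVar.Sch Fermat.Agent.MCurve

variable {k : Type u} [Field k] {C : Scheme.{u}} [AlgebraicGeometry.IsIntegral C]
  (c : C ⟶ Spec (CommRingCat.of k))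

/-- The function field, as an algebra over the base field. -/
@[nolint unusedArguments]
def FunField (_c : C ⟶ Spec (CommRingCat.of k)) : Type u := C.functionField

instance : Field (FunField c) := inferInstanceAs (Field C.functionField)

instance : Algebra k (FunField c) := fieldAlg c

/-- Functions on an open in the function field. -/
def germF (ch : Chart C) : Γ(C, ch.U) →+* FunField c := germHom ch.U ch.gen_mem

theorem germF_injective (ch : Chart C) : Function.Injective (germF c ch) :=
  germHom_injective ch.gen_mem

theorem germF_chartHom (ch : Chart C) (r : k) :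
    germF c ch (chartHom c ch.U r) = algebraMap k (FunField c) r :=
  RingHom.congr_fun (germHom_chartHom c ch.gen_mem) r

theorem germF_res {ch d : Chart C} (h : d.U ≤ ch.U) (a : Γ(C, ch.U)) :
    germF c d ((C.presheaf.map (homOfLE h).op).hom a) = germF c ch a :=
  RingHom.congr_fun (germHom_res h d.gen_mem) a

theorem exists_chart_mem {x : C} {W : C.Opens} (hx : x ∈ W) :
    ∃ ch : Chart C, x ∈ ch.U ∧ ch.U ≤ W := by
  obtain ⟨_, ⟨U, hU, rfl⟩, hxU, hUW⟩ :=
    C.isBasis_affineOpens.exists_subset_of_mem_open hx W.isOpen
  exact ⟨⟨U, hU, gen_mem_of_mem hxU⟩, hxU, hUW⟩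

theorem exists_isFinOver [SmoothOfRelativeDimension 1 c] :
    ∃ x : FunField c, IsFinOver k x := by
  haveI : Smooth c := SmoothOfRelativeDimension.smooth 1 c
  obtain ⟨ch, -, -⟩ := exists_chart_mem (x := genericPoint C) (W := ⊤) trivial
  let B : Subalgebra k (FunField c) := chartRing c ch
  obtain ⟨z, hz, hint⟩ :
      ∃ z : Fin 1 → B, AlgebraicIndependent k (fun l => (z l : FunField c)) ∧
        ∀ a ∈ B, IsIntegral (Algebra.adjoin k (Set.range fun l => (z l : FunField c))) a :=
    exists_normalisation c 1 ch
  set x : FunField c := ((z 0 : B) : FunField c)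
  have htr : Transcendental k x := hz.transcendental 0
  refine ⟨x, htr, ?_⟩
  obtain ⟨s, hs⟩ := (show B.FG from chartRing_fg c ch)
  have hsub : Algebra.adjoin k (Set.range fun l => (z l : FunField c)) ≤
      (IntermediateField.adjoin k {x}).toSubalgebra := Algebra.adjoin_le (by
    rintro _ ⟨l, rfl⟩
    rw [Subsingleton.elim l 0]
    exact IntermediateField.mem_adjoin_simple_self k x)
  letI : Algebra (Algebra.adjoin k (Set.range fun l => (z l : FunField c)))
      (IntermediateField.adjoin k {x}) := (Subalgebra.inclusion hsub).toRingHom.toAlgebra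
  haveI : IsScalarTower (Algebra.adjoin k (Set.range fun l => (z l : FunField c)))
      (IntermediateField.adjoin k {x}) (FunField c) := IsScalarTower.of_algebraMap_eq fun _ => rfl
  haveI : Finite (s : Set (FunField c)) := s.finite_toSet.to_subtype
  haveI : FiniteDimensional (IntermediateField.adjoin k {x})
      (IntermediateField.adjoin (IntermediateField.adjoin k {x}) (s : Set (FunField c))) :=
    IntermediateField.finiteDimensional_adjoin fun y hy =>
      (hint y (hs ▸ Algebra.subset_adjoin hy)).tower_top
  have htop : IntermediateField.adjoin (IntermediateField.adjoin k {x}) (s : Set (FunField c)) = ⊤ := by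
    refine eq_top_iff.mpr fun y _ => ?_
    obtain ⟨a, ha, b, hb, -, rfl⟩ := chartRing_frac c ch y
    have hle : B ≤ ((IntermediateField.adjoin (IntermediateField.adjoin k {x})
        (s : Set (FunField c))).restrictScalars k).toSubalgebra := by
      rw [← hs]
      exact Algebra.adjoin_le (IntermediateField.subset_adjoin _ _)
    exact div_mem (hle ha) (hle hb)
  exact Module.Finite.equiv
    ((IntermediateField.equivOfEq htop).trans IntermediateField.topEquiv).toLinearEquiv

theorem fromSpecStalk_eq (ch : Chart C) :
    Spec.map (CommRingCat.ofHom (germF c ch)) ≫ ch.affine.fromSpec =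
      C.fromSpecStalk (genericPoint C) :=
  ch.affine.fromSpecStalk_eq_fromSpecStalk ch.gen_mem

/-- The generic point as a point over the base. -/
def genPt : SchemeHomOver (specK (algebraMap k (FunField c))) c :=
  ⟨C.fromSpecStalk (genericPoint C), by
    obtain ⟨ch, -, -⟩ := exists_chart_mem (x := genericPoint C) (W := ⊤) trivial
    rw [← fromSpecStalk_eq c ch, Category.assoc, fromSpec_comp c ch.affine, specK_comp]
    exact congrArg specK (RingHom.ext (germF_chartHom c ch))⟩

variable [IsProper c]

/-- The extension of the generic point over the valuation ring of a place. -/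
def extPt (v : Place k (FunField c)) :
    SchemeHomOver (specK (valHom v.toValuationSubring (algebraMap k (FunField c)) v.algebraMap_mem'))
      c :=
  (existsUnique_extend c v.toValuationSubring _ v.algebraMap_mem' (genPt c)).choose

/-- The point of a place. -/
def center (v : Place k (FunField c)) : C :=
  (extPt c v).1 (IsLocalRing.closedPoint v.toValuationSubring)

theorem extPt_generic (v : Place k (FunField c)) :
    Spec.map (CommRingCat.ofHom v.toValuationSubring.subtype) ≫ (extPt c v).1 = (genPt c).1 :=
  (existsUnique_extend c v.toValuationSubring _ v.algebraMap_mem' (genPt c)).choose_spec.1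

theorem center_spec {v : Place k (FunField c)} {ch : Chart C} (h : center c v ∈ ch.U) :
    (∀ a, germF c ch a ∈ v.toValuationSubring) ∧
      ∀ a, a ∈ (ch.affine.primeIdealOf ⟨_, h⟩).asIdeal ↔
        germF c ch a ∈ v.toValuationSubring.nonunits := by
  obtain ⟨θ, hθ⟩ := exists_chartHom ch.affine (extPt c v).1
    (range_subset_of_closedPoint_mem _ h)
  have hg : v.toValuationSubring.subtype.comp θ = germF c ch := by
    refine chartPt_injective ch.affine ?_
    rw [← specMap_ofHom_comp, Category.assoc, hθ, extPt_generic, fromSpecStalk_eq]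
    rfl
  have hga : ∀ a, ((θ a : v.toValuationSubring) : FunField c) = germF c ch a :=
    RingHom.congr_fun hg
  refine ⟨fun a => hga a ▸ (θ a).2, fun a => ?_⟩
  have hp : ch.affine.primeIdealOf ⟨_, h⟩ =
      Spec.map (CommRingCat.ofHom θ) (IsLocalRing.closedPoint v.toValuationSubring) := by
    have := ch.affine.isOpenImmersion_fromSpec
    refine ch.affine.fromSpec.isOpenEmbedding.injective ?_
    rw [ch.affine.fromSpec_primeIdealOf]
    exact (congrArg (fun m : Spec (CommRingCat.of v.toValuationSubring) ⟶ C =>
      m (IsLocalRing.closedPoint v.toValuationSubring)) hθ).symm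
  rw [hp, ← hga, ValuationSubring.coe_mem_nonunits_iff]
  rfl

/-- A place whose ring contains the functions of an affine open has its point there. -/
theorem center_mem {v : Place k (FunField c)} {ch : Chart C}
    (h : ∀ a, germF c ch a ∈ v.toValuationSubring) : center c v ∈ ch.U := by
  let θ : Γ(C, ch.U) →+* v.toValuationSubring := (germF c ch).codRestrict _ h
  let m : SchemeHomOver
      (specK (valHom v.toValuationSubring (algebraMap k (FunField c)) v.algebraMap_mem')) c :=
    chartPt c ch.affine θ (RingHom.ext fun r => Subtype.ext (germF_chartHom c ch r))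
  have hm : m = extPt c v :=
    (existsUnique_extend c v.toValuationSubring _ v.algebraMap_mem' (genPt c)).choose_spec.2 m (by
      refine (Category.assoc _ _ _).symm.trans
        ((congrArg (· ≫ ch.affine.fromSpec) (specMap_ofHom_comp θ v.toValuationSubring.subtype)).trans
          ?_)
      exact fromSpecStalk_eq c ch)
  exact range_chartPt_subset ch.affine θ ⟨IsLocalRing.closedPoint _, by rw [center, ← hm]; rfl⟩

section Primes

variable [IsAlgClosed k]

omit [IsProper c] in
theorem mem_nonunits_iff_ord {v : Place k (FunField c)} {f : FunField c} :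
    f ∈ v.toValuationSubring.nonunits ↔ f = 0 ∨ 0 < v.ord f := by
  rw [ValuationSubring.mem_nonunits_iff_or]
  refine or_congr_right' fun hf => ?_
  rw [mem_iff_ord_nonneg v (inv_ne_zero hf), v.ord_inv]
  omega

variable [SmoothOfRelativeDimension 1 c]

omit [IsProper c] in
theorem exists_sub_mem_nonunits (v : Place k (FunField c)) {f : FunField c}
    (hf : f ∈ v.toValuationSubring) :
    ∃ r : k, f - algebraMap k (FunField c) r ∈ v.toValuationSubring.nonunits := by
  obtain ⟨x, hx⟩ := exists_isFinOver c
  haveI := (RR.finiteResidue_of_isFinOver hx v).finite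
  obtain ⟨r, hr⟩ := exists_value v hf
  exact ⟨r, (mem_nonunits_iff_ord c).mpr (hr.imp sub_eq_zero.mpr id)⟩

theorem center_isMaximal {v : Place k (FunField c)} {ch : Chart C} (h : center c v ∈ ch.U) :
    (ch.affine.primeIdealOf ⟨_, h⟩).asIdeal.IsMaximal := by
  obtain ⟨h1, h2⟩ := center_spec c h
  refine Ideal.isMaximal_iff.mpr ⟨fun h0 => (Ideal.ne_top_iff_one _).mp
    (ch.affine.primeIdealOf ⟨_, h⟩).isPrime.ne_top h0, fun J a hJ ha haJ => ?_⟩
  obtain ⟨r, hr⟩ := exists_sub_mem_nonunits c v (h1 a)
  rw [← germF_chartHom c ch, ← map_sub, ← h2] at hr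
  have hr0 : r ≠ 0 := by
    rintro rfl
    rw [map_zero, sub_zero] at hr
    exact ha hr
  have : chartHom c ch.U r ∈ J := by simpa using J.sub_mem haJ (hJ hr)
  have := J.mul_mem_left (chartHom c ch.U r⁻¹) this
  rwa [← map_mul, inv_mul_cancel₀ hr0, map_one] at this

/-- Every nonzero prime of an affine open comes from a place. -/
theorem exists_center_of_prime (ch : Chart C) (P : Ideal Γ(C, ch.U)) [P.IsPrime] (hP : P ≠ ⊥) :
    ∃ (v : Place k (FunField c)) (h : center c v ∈ ch.U),
      (ch.affine.primeIdealOf ⟨_, h⟩).asIdeal = P := by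
  let e : Γ(C, ch.U) ≃+* (germF c ch).range :=
    RingEquiv.ofLeftInverse (Function.leftInverse_invFun (germF_injective c ch))
  set Q : Ideal (germF c ch).range := P.comap e.symm.toRingHom
  haveI : Q.IsPrime := Ideal.IsPrime.comap _
  obtain ⟨V, hV⟩ := (LocalSubring.ofPrime (germF c ch).range Q).exists_le_valuationSubring
  obtain ⟨hVle, hVloc⟩ := hV
  have hmem : ∀ a, germF c ch a ∈ V := fun a => hVle (LocalSubring.le_ofPrime _ Q ⟨a, rfl⟩)
  have hiff : ∀ a, germF c ch a ∈ V.nonunits ↔ a ∈ P := fun a => by
    have hu : IsUnit (⟨germF c ch a, hmem a⟩ : V) ↔ a ∉ P := by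
      let y : (LocalSubring.ofPrime (germF c ch).range Q).toSubring :=
        algebraMap (germF c ch).range _ (e a)
      have hy : IsUnit (Subring.inclusion hVle y) ↔ IsUnit y :=
        ⟨fun hh => hVloc.map_nonunit y hh, fun hh => hh.map _⟩
      have hq : IsUnit y ↔ e a ∉ Q := by
        rw [show y = LocalSubring.ofPrimeEquiv _ Q (algebraMap _ (Localization.AtPrime Q) (e a)) from
          ((LocalSubring.ofPrimeEquiv _ Q).commutes (e a)).symm, isUnit_map_iff,
          IsLocalization.AtPrime.isUnit_to_map_iff (Localization.AtPrime Q) Q]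
        rfl
      refine Iff.trans (Iff.trans (Iff.of_eq rfl) hy) (hq.trans ?_)
      show ¬ (e.symm (e a) ∈ P) ↔ _
      rw [RingEquiv.symm_apply_apply]
    rw [show germF c ch a = ((⟨germF c ch a, hmem a⟩ : V) : FunField c) from rfl,
      ValuationSubring.coe_mem_nonunits_iff, IsLocalRing.mem_maximalIdeal, mem_nonunits_iff, hu,
      not_not]
  obtain ⟨x, hx⟩ := exists_isFinOver c
  obtain ⟨v, rfl⟩ := exists_place_valuationSubring hx (A := V)
    (fun r => germF_chartHom c ch r ▸ hmem _) (by
      obtain ⟨a, ha, ha0⟩ := Submodule.exists_mem_ne_zero_of_ne_bot hP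
      intro htop
      rcases V.mem_nonunits_iff_or.mp ((hiff a).mpr ha) with h | h
      · exact ha0 ((map_eq_zero_iff _ (germF_injective c ch)).mp h)
      · exact h (htop ▸ ValuationSubring.mem_top _))
  refine ⟨v, center_mem c hmem, Ideal.ext fun a => ?_⟩
  rw [(center_spec c _).2, hiff]

omit [IsProper c] [IsAlgClosed k] [SmoothOfRelativeDimension 1 c] in
theorem eq_generic_of_prime_eq_bot {ch : Chart C} {x : C} (hx : x ∈ ch.U)
    (h : (ch.affine.primeIdealOf ⟨x, hx⟩).asIdeal = ⊥) : x = genericPoint C := by
  have := ch.nonempty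
  have := ch.isDomain
  have h2 := ch.affine.primeIdealOf_genericPoint
  rw [genericPoint_eq_bot_of_affine] at h2
  have h3 : ch.affine.primeIdealOf ⟨x, hx⟩ = ch.affine.primeIdealOf ⟨genericPoint C, ch.gen_mem⟩ :=
    (PrimeSpectrum.ext h).trans h2.symm
  have := congrArg ch.affine.fromSpec h3
  rwa [ch.affine.fromSpec_primeIdealOf, ch.affine.fromSpec_primeIdealOf] at this

/-- Every point other than the generic one is the point of a place. -/
theorem exists_center (x : C) (hx : x ≠ genericPoint C) : ∃ v, center c v = x := by
  obtain ⟨ch, hxU, -⟩ := exists_chart_mem (x := x) (W := ⊤) trivial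
  obtain ⟨v, h, he⟩ := exists_center_of_prime c ch (ch.affine.primeIdealOf ⟨x, hxU⟩).asIdeal
    fun h => hx (eq_generic_of_prime_eq_bot hxU h)
  refine ⟨v, ?_⟩
  have := congrArg ch.affine.fromSpec (PrimeSpectrum.ext he)
  rwa [ch.affine.fromSpec_primeIdealOf, ch.affine.fromSpec_primeIdealOf] at this

end Primes

end Fermat.Agent.Jac.FromCurve
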