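/-
S25/U1: local rings of the curve, functions on opens.
-/
import Fermat.Agent.Jac.FromCurve.Points
import Mathlib.Topology.Sheaves.SheafCondition.UniqueGluing

set_option autoImplicit false

noncomputable section

universe u

open CategoryTheory CategoryTheory.Limits AlgebraicGeometry NeronModelInfra AlgebraicCurve Opposite

namespace Fermat.Agent.Jac.FromCurve

open Fermat.Agent.AbVar.Sch Fermat.Agent.MCurve

variable {k : Type u} [Field k] {C : Scheme.{u}} [AlgebraicGeometry.IsIntegral C]
  (c : C ⟶ Spec (CommRingCat.of k)) [IsAlgClosed k] [SmoothOfRelativeDimension 1 c]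

include c in
/-- Near every point functions compare modulo the maximal ideals. -/
theorem exists_dvd_chart (x : C) :
    ∃ ch : Chart C, x ∈ ch.U ∧ ∀ (P : Ideal Γ(C, ch.U)) [P.IsMaximal] (a b : Γ(C, ch.U)),
      ∃ s ∉ P, ∃ e, s * a = e * b ∨ s * b = e * a := by
  obtain ⟨U, -, V, hV, hxV, e, h⟩ :=
    SmoothOfRelativeDimension.exists_isStandardSmoothOfRelativeDimension (n := 1) (f := c) x
  have hU : U = ⊤ := top_le_iff.mp fun y _ => by
    rw [show y = c x from Subsingleton.elim (α := PrimeSpectrum k) _ _]
    exact e hxV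
  subst hU
  let ch : Chart C := ⟨V, hV, gen_mem_of_mem hxV⟩
  refine ⟨ch, hxV, fun P hP a b => ?_⟩
  have := ch.isDomain
  let := (chartHom c ch.U).toAlgebra
  have : Algebra.IsStandardSmoothOfRelativeDimension 1 k Γ(C, ch.U) := by
    show RingHom.IsStandardSmoothOfRelativeDimension 1 (chartHom c ch.U)
    rw [chartHom, CommRingCat.hom_comp,
      RingHom.isStandardSmoothOfRelativeDimension_respectsIso.cancel_left_isIso]
    exact h
  exact exists_dvd_or_dvd k P a b

variable [IsProper c]

theorem center_ne_generic (v : Place k (FunField c)) : center c v ≠ genericPoint C := by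
  intro heq
  obtain ⟨ch, hU, -⟩ := exists_chart_mem (x := center c v) (W := ⊤) trivial
  obtain ⟨h1, h2⟩ := center_spec c hU
  refine v.ne_top' (SetLike.ext fun z => iff_of_true ?_ trivial)
  obtain ⟨a, ⟨a, rfl⟩, b, ⟨b, rfl⟩, hb, rfl⟩ := chartRing_frac c ch z
  rw [div_eq_mul_inv]
  refine mul_mem (h1 a) ?_
  by_contra hb'
  have hmem := (h2 b).mpr (v.toValuationSubring.mem_nonunits_iff_or.mpr (Or.inr hb'))
  have := ch.nonempty
  have := ch.isDomain
  have hg := ch.affine.primeIdealOf_genericPoint
  rw [genericPoint_eq_bot_of_affine] at hg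
  have hbot : (ch.affine.primeIdealOf ⟨_, hU⟩).asIdeal = ⊥ := by
    have e : (⟨center c v, hU⟩ : ch.U) = ⟨genericPoint C, ch.gen_mem⟩ := Subtype.ext heq
    rw [e, hg]
    rfl
  rw [hbot, Ideal.mem_bot] at hmem
  exact hb (by rw [hmem, map_zero])

theorem mem_locRing_center_iff {v : Place k (FunField c)} {f : FunField c} :
    (f : C.functionField) ∈ locRing (center c v) ↔ f ∈ v.toValuationSubring := by
  constructor
  · intro hf
    obtain ⟨ch, hU, -⟩ := exists_chart_mem (x := center c v) (W := ⊤) trivial
    obtain ⟨h1, h2⟩ := center_spec c hU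
    obtain ⟨a, s, hs, ha⟩ := (mem_locRing_iff ch hU).mp hf
    change (f : FunField c) * germF c ch s = germF c ch a at ha
    rw [h2, v.toValuationSubring.mem_nonunits_iff_or, not_or, not_not] at hs
    rw [show f = germF c ch a * (germF c ch s)⁻¹ by rw [← ha, mul_inv_cancel_right₀ hs.1]]
    exact mul_mem (h1 a) hs.2
  · intro hf
    obtain ⟨ch, hU, hdvd⟩ := exists_dvd_chart c (center c v)
    obtain ⟨h1, h2⟩ := center_spec c hU
    have := center_isMaximal c hU
    obtain ⟨a, ⟨a, rfl⟩, b, ⟨b, rfl⟩, hb, rfl⟩ := chartRing_frac c ch f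
    change germF c ch a / germF c ch b ∈ v.toValuationSubring at hf
    have hb : germF c ch b ≠ 0 := hb
    obtain ⟨s, hs, e, he | he⟩ := hdvd (ch.affine.primeIdealOf ⟨_, hU⟩).asIdeal a b
    · refine (mem_locRing_iff ch hU).mpr ⟨e, s, hs, ?_⟩
      show germF c ch a / germF c ch b * germF c ch s = germF c ch e
      rw [div_mul_eq_mul_div, div_eq_iff hb, mul_comm, ← map_mul, he, map_mul]
    · have key : germF c ch e * (germF c ch a / germF c ch b) = germF c ch s := by
        rw [mul_div_assoc', div_eq_iff hb, ← map_mul, ← he, map_mul]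
      refine (mem_locRing_iff ch hU).mpr ⟨s, e, fun he' => hs ?_, ?_⟩
      · rw [h2] at he' ⊢
        rw [← key]
        exact ValuationSubring.coe_mem_nonunits_iff.mpr (Ideal.mul_mem_right
          (⟨_, hf⟩ : v.toValuationSubring) _
          ((ValuationSubring.coe_mem_nonunits_iff (a := ⟨_, h1 e⟩)).mp he'))
      · show germF c ch a / germF c ch b * germF c ch e = germF c ch s
        rw [mul_comm, key]

theorem center_injective : Function.Injective (center c) := fun v w h =>
  Place.ext (SetLike.ext fun f => by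
    rw [← mem_locRing_center_iff, ← mem_locRing_center_iff, h])

/-- Functions regular at all places of an affine open are functions on it. -/
theorem exists_germF_eq (ch : Chart C) {f : FunField c}
    (hf : ∀ v : Place k (FunField c), center c v ∈ ch.U → f ∈ v.toValuationSubring) :
    ∃ a, germF c ch a = f := by
  have hmem : (f : C.functionField) ∈ chartRing c ch := mem_chartRing_of_forall c ch fun x hx => by
    by_cases hgen : x = genericPoint C
    · subst hgen
      obtain ⟨a, ⟨a, rfl⟩, b, ⟨b, rfl⟩, hb, e⟩ := chartRing_frac c ch f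
      refine (mem_locRing_iff ch hx).mpr ⟨a, b, fun hmem => hb ?_, ?_⟩
      · have := ch.nonempty
        have := ch.isDomain
        rw [ch.affine.primeIdealOf_genericPoint, genericPoint_eq_bot_of_affine] at hmem
        exact (map_eq_zero_iff _ (germHom_injective ch.gen_mem)).mpr (Ideal.mem_bot.mp hmem)
      · have key : (f : FunField c) * germF c ch b = germF c ch a := by
          rw [show (f : FunField c) = germF c ch a / germF c ch b from e]
          exact div_mul_cancel₀ _ hb
        exact key
    · obtain ⟨v, rfl⟩ := exists_center c x hgen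
      exact (mem_locRing_center_iff c).mpr (hf v hx)
  exact hmem

/-- Functions regular at all places of an open are functions on it. -/
theorem exists_section {W : C.Opens} (hW : genericPoint C ∈ W) {f : FunField c}
    (hf : ∀ v : Place k (FunField c), center c v ∈ W → f ∈ v.toValuationSubring) :
    ∃ a : Γ(C, W), germHom W hW a = f := by
  let ι := {ch : Chart C // ch.U ≤ W}
  choose a ha using fun i : ι => exists_germF_eq c i.1 fun v hv => hf v (i.2 hv)
  have hcov : W ≤ ⨆ i : ι, i.1.U := fun x hx => by
    obtain ⟨ch, hxU, hle⟩ := exists_chart_mem (x := x) hx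
    exact TopologicalSpace.Opens.mem_iSup.mpr ⟨⟨ch, hle⟩, hxU⟩
  have hc : TopCat.Presheaf.IsCompatible C.presheaf (fun i : ι => i.1.U) a := fun i j => by
    refine germHom_injective (U := i.1.U ⊓ j.1.U) ⟨i.1.gen_mem, j.1.gen_mem⟩ ?_
    show germHom _ _ ((C.presheaf.map (homOfLE inf_le_left).op).hom (a i)) =
      germHom _ _ ((C.presheaf.map (homOfLE inf_le_right).op).hom (a j))
    exact ((RingHom.congr_fun (germHom_res (U := i.1.U) inf_le_left ⟨i.1.gen_mem, j.1.gen_mem⟩)
      (a i)).trans ((ha i).trans (ha j).symm)).trans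
        (RingHom.congr_fun (germHom_res (U := j.1.U) inf_le_right ⟨i.1.gen_mem, j.1.gen_mem⟩)
          (a j)).symm
  obtain ⟨s, hs, -⟩ := TopCat.Sheaf.existsUnique_gluing' C.sheaf (fun i : ι => i.1.U) W
    (fun i => homOfLE i.2) hcov a hc
  obtain ⟨ch, -, hle⟩ := exists_chart_mem (x := genericPoint C) hW
  refine ⟨s, ?_⟩
  exact ((RingHom.congr_fun (germHom_res hle ch.gen_mem) s).symm.trans
    ((congrArg (germHom ch.U ch.gen_mem) (hs ⟨ch, hle⟩)).trans (ha ⟨ch, hle⟩)))

/-- The locus where a function is invertible. -/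
theorem center_mem_basicOpen_iff {v : Place k (FunField c)} {ch : Chart C}
    (h : center c v ∈ ch.U) (a : Γ(C, ch.U)) :
    center c v ∈ C.basicOpen a ↔ germF c ch a ∉ v.toValuationSubring.nonunits := by
  let := TopCat.Presheaf.algebra_section_stalk C.presheaf (U := ch.U) ⟨_, h⟩
  have := ch.affine.isLocalization_stalk ⟨_, h⟩
  rw [C.mem_basicOpen a _ h, ← (center_spec c h).2]
  exact IsLocalization.AtPrime.isUnit_to_map_iff (C.presheaf.stalk (center c v))
    (ch.affine.primeIdealOf ⟨_, h⟩).asIdeal a

end Fermat.Agent.Jac.FromCurve
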