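/-
S25/U1: closed points, the punctured curve is affine, rings of affine opens are Dedekind domains.
-/
import Fermat.Agent.Jac.FromCurve.Local
import Fermat.Agent.MCurve.RiemannRoch.Spaces
import Mathlib.AlgebraicGeometry.Morphisms.Separated
import Mathlib.RingTheory.DedekindDomain.Basic

set_option autoImplicit false

noncomputable section

universe u

open CategoryTheory CategoryTheory.Limits AlgebraicGeometry NeronModelInfra AlgebraicCurve

namespace Fermat.Agent.Jac.FromCurve

open Fermat.Agent.AbVar.Sch Fermat.Agent.MCurve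

variable {k : Type u} [Field k] {C : Scheme.{u}} [AlgebraicGeometry.IsIntegral C]
  (c : C ⟶ Spec (CommRingCat.of k)) [IsAlgClosed k] [SmoothOfRelativeDimension 1 c] [IsProper c]

omit [IsAlgClosed k] [SmoothOfRelativeDimension 1 c] [IsProper c] in
theorem germHom_chart {W : C.Opens} {hW : genericPoint C ∈ W} {ch : Chart C} (hle : ch.U ≤ W)
    (a : Γ(C, W)) : germF c ch ((C.presheaf.map (homOfLE hle).op).hom a) = germHom W hW a :=
  RingHom.congr_fun (germHom_res hle ch.gen_mem) a

omit [IsAlgClosed k] [SmoothOfRelativeDimension 1 c] in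
theorem section_mem {W : C.Opens} {hW : genericPoint C ∈ W} (a : Γ(C, W))
    {v : Place k (FunField c)} (hv : center c v ∈ W) :
    (germHom W hW a : FunField c) ∈ v.toValuationSubring := by
  obtain ⟨ch, hx, hle⟩ := exists_chart_mem hv
  rw [← germHom_chart c (hW := hW) hle a]
  exact (center_spec c hx).1 _

theorem center_mem_basicOpen_iff' {W : C.Opens} {hW : genericPoint C ∈ W} (a : Γ(C, W))
    {v : Place k (FunField c)} (hv : center c v ∈ W) :
    center c v ∈ C.basicOpen a ↔
      (germHom W hW a : FunField c) ∉ v.toValuationSubring.nonunits := by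
  obtain ⟨ch, hx, hle⟩ := exists_chart_mem hv
  rw [← germHom_chart c (hW := hW) hle a]
  refine Iff.trans ?_ (center_mem_basicOpen_iff c hx _)
  rw [C.basicOpen_res]
  exact ⟨fun h => ⟨hx, h⟩, fun h => h.2⟩

theorem isClosed_center (v : Place k (FunField c)) : IsClosed {center c v} := by
  refine closure_eq_iff_isClosed.mp (Set.Subset.antisymm (fun y hy => ?_) subset_closure)
  have hsp : center c v ⤳ y := specializes_iff_mem_closure.mpr hy
  obtain ⟨ch, hyU, -⟩ := exists_chart_mem (x := y) (W := ⊤) trivial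
  have hxU : center c v ∈ ch.U := hsp.mem_open ch.U.isOpen hyU
  have hmax := center_isMaximal c hxU
  have := ch.affine.isOpenImmersion_fromSpec
  have hy' : ch.affine.fromSpec (ch.affine.primeIdealOf ⟨y, hyU⟩) = y :=
    ch.affine.fromSpec_primeIdealOf ⟨y, hyU⟩
  have hx' : ch.affine.fromSpec (ch.affine.primeIdealOf ⟨_, hxU⟩) = center c v :=
    ch.affine.fromSpec_primeIdealOf ⟨_, hxU⟩
  rw [← hy', ← hx'] at hsp
  replace hsp := (PrimeSpectrum.le_iff_specializes _ _).mpr
    (ch.affine.fromSpec.isOpenEmbedding.toIsEmbedding.isInducing.specializes_iff.mp hsp)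
  have heq : ch.affine.primeIdealOf ⟨y, hyU⟩ = ch.affine.primeIdealOf ⟨_, hxU⟩ :=
    PrimeSpectrum.ext (hmax.eq_of_le (ch.affine.primeIdealOf ⟨y, hyU⟩).isPrime.ne_top hsp).symm
  have := congrArg ch.affine.fromSpec heq
  rw [ch.affine.fromSpec_primeIdealOf, ch.affine.fromSpec_primeIdealOf] at this
  exact this

/-- The places outside an affine open form a finite set. -/
theorem finite_center_notMem (ch : Chart C) :
    {w : Place k (FunField c) | center c w ∉ ch.U}.Finite := by
  classical
  obtain ⟨x, hx⟩ := exists_isFinOver c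
  let B : Subalgebra k (FunField c) := chartRing c ch
  obtain ⟨s, hs⟩ := (show B.FG from chartRing_fg c ch)
  refine ((s.filter fun g : FunField c => g ≠ 0).finite_toSet.biUnion fun g hg =>
    RR.finite_ord_ne_zero hx (Finset.mem_filter.mp hg).2).subset fun w hw => ?_
  by_contra hcon
  refine hw (center_mem c fun a => ?_)
  have hle : ∀ z ∈ B, z ∈ w.toValuationSubring := by
    rw [← hs]
    intro z hz
    induction hz using Algebra.adjoin_induction with
    | mem g hg =>
      rcases eq_or_ne g 0 with rfl | hg0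
      · exact zero_mem _
      refine (mem_iff_ord_nonneg w hg0).mpr (not_lt.mp fun hlt => hcon ?_)
      exact Set.mem_biUnion (Finset.mem_coe.mpr (Finset.mem_filter.mpr ⟨hg, hg0⟩)) hlt.ne
    | algebraMap r => exact w.algebraMap_mem' r
    | add x y _ _ hx hy => exact add_mem hx hy
    | mul x y _ _ hx hy => exact mul_mem hx hy
  exact hle _ (germHom_mem c ch a)

variable {g N : ℕ}

/-- A function with poles at a single place, invertible at another, vanishing at finitely many. -/
theorem exists_sep_fn (v₀ v : Place k (FunField c)) (hv : v ≠ v₀)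
    (T : Finset (Place k (FunField c))) (hvT : v ∉ T) :
    ∃ f : FunField c, (∀ w, w ≠ v₀ → f ∈ w.toValuationSubring) ∧
      f ∉ v.toValuationSubring.nonunits ∧
      ∀ w ∈ T, w ≠ v₀ → f ∈ w.toValuationSubring.nonunits := by
  classical
  obtain ⟨x, hx⟩ := exists_isFinOver c
  obtain ⟨hP, hF, hne⟩ := RR.curve_props hx
  obtain ⟨g, N, hR⟩ := RR.exists_isRiemann hx
  set S := T.erase v₀
  set D : Divisor k (FunField c) :=
    Finsupp.single v₀ ((N : ℤ) + 1 + S.card) - ∑ w ∈ S, Finsupp.single w 1
  have hdeg : Divisor.degree D = (N : ℤ) + 1 := by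
    simp [D, map_sub, map_sum, RR.deg_one]
  have hD : ∀ w, w ≠ v₀ → D w = if w ∈ S then -1 else 0 := fun w hw => by
    rw [Finsupp.sub_apply, Finsupp.single_eq_of_ne hw, Finsupp.finsetSum_apply,
      Finset.sum_congr rfl (fun u _ => Finsupp.single_apply), Finset.sum_ite_eq']
    split_ifs <;> rfl
  obtain ⟨f, hf, hf0, hfv⟩ := hR.exists_ord_eq (D := D) (by omega) v
  have hfo := (RR.mem_space_iff.mp hf).resolve_left hf0
  refine ⟨f, fun w hw => (mem_iff_ord_nonneg w hf0).mpr ?_, fun hn => ?_, fun w hw hw0 => ?_⟩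
  · have := hfo w
    rw [hD w hw] at this
    split_ifs at this <;> omega
  · rcases (mem_nonunits_iff_ord c).mp hn with h | h
    · exact hf0 h
    · rw [hD v hv, if_neg fun h' => hvT (Finset.mem_of_mem_erase h')] at hfv
      omega
  · refine (mem_nonunits_iff_ord c).mpr (Or.inr ?_)
    have := hfo w
    rw [hD w hw0, if_pos (Finset.mem_erase.mpr ⟨hw0, hw⟩)] at this
    omega

theorem exists_pole_fn (v₀ : Place k (FunField c)) :
    ∃ f : FunField c, (∀ w, w ≠ v₀ → f ∈ w.toValuationSubring) ∧ f ∉ v₀.toValuationSubring := by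
  obtain ⟨x, hx⟩ := exists_isFinOver c
  obtain ⟨hP, hF, hne⟩ := RR.curve_props hx
  obtain ⟨g, N, hR⟩ := RR.exists_isRiemann hx
  obtain ⟨f, hf, hf0, hfv⟩ := hR.exists_ord_eq
    (D := Finsupp.single v₀ ((N : ℤ) + 1))
    (by rw [Divisor.degree_single, RR.deg_one]; push_cast; omega) v₀
  rw [Finsupp.single_eq_same] at hfv
  refine ⟨f, fun w hw => (mem_iff_ord_nonneg w hf0).mpr ?_,
    fun h => by have := ord_nonneg_of_mem' v₀ h; omega⟩
  have := (RR.mem_space_iff.mp hf).resolve_left hf0 w
  rwa [Finsupp.single_eq_of_ne hw, neg_zero] at this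

/-- The curve minus a closed point is affine. -/
theorem isAffineOpen_punct (v₀ : Place k (FunField c)) (W : C.Opens)
    (hW : (W : Set C) = {center c v₀}ᶜ) : IsAffineOpen W := by
  classical
  have hgen : genericPoint C ∈ W := by
    rw [← SetLike.mem_coe, hW]; exact (center_ne_generic c v₀).symm
  have hmem : ∀ w, center c w ∈ W ↔ w ≠ v₀ := fun w => by
    rw [← SetLike.mem_coe, hW]; exact (center_injective c).ne_iff
  have key : ∀ v, v ≠ v₀ → ∃ a : Γ(C, W), IsAffineOpen (C.basicOpen a) ∧
      (germHom W hgen a : FunField c) ∉ v.toValuationSubring.nonunits := fun v hv => by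
    obtain ⟨ch, hvU, hle⟩ := exists_chart_mem ((hmem v).mpr hv)
    set T := (finite_center_notMem c ch).toFinset
    obtain ⟨f, hf, hfv, hfT⟩ := exists_sep_fn c v₀ v hv T (by simp [T, hvU])
    obtain ⟨a, ha⟩ := exists_section c hgen (f := f) fun w hw => hf w ((hmem w).mp hw)
    refine ⟨a, ?_, by rw [ha]; exact hfv⟩
    have hsub : C.basicOpen a ≤ ch.U := fun y hy => by
      by_cases hyg : y = genericPoint C
      · rw [hyg]; exact ch.gen_mem
      obtain ⟨w, rfl⟩ := exists_center c y hyg
      by_contra hyU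
      have hw := (hmem w).mp (C.basicOpen_le a hy)
      refine (center_mem_basicOpen_iff' c (hW := hgen) a (C.basicOpen_le a hy)).mp hy ?_
      rw [ha]
      exact hfT w (by simpa [T] using hyU) hw
    rw [← inf_eq_right.mpr hsub, ← C.basicOpen_res a (homOfLE hle).op]
    exact ch.affine.basicOpen _
  obtain ⟨x, hx⟩ := exists_isFinOver c
  obtain ⟨hP, hF, hne'⟩ := RR.curve_props hx
  have := RR.infinite_places hx.transcendental
  refine isAffineOpen_of_isAffineOpen_basicOpen W {a | IsAffineOpen (C.basicOpen a)} ?_ fun _ h => h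
  by_contra hne
  let gm : Γ(C, W) →+* FunField c := germHom W hgen
  have hgm : Function.Injective gm := germHom_injective hgen
  let e : Γ(C, W) ≃+* gm.range := RingEquiv.ofLeftInverse (Function.leftInverse_invFun hgm)
  obtain ⟨V, hV, hnon⟩ := Ideal.image_subset_nonunits_valuationSubring
    ((Ideal.span {a | IsAffineOpen (C.basicOpen a)}).comap e.symm.toRingHom)
    (Ideal.comap_ne_top _ hne)
  have hnon' : ∀ a, IsAffineOpen (C.basicOpen a) → gm a ∈ V.nonunits := fun a ha =>
    hnon ⟨e a, Ideal.mem_comap.mpr (by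
      simp only [RingEquiv.toRingHom_eq_coe, RingHom.coe_coe, RingEquiv.symm_apply_apply]
      exact Ideal.subset_span ha), rfl⟩
  obtain ⟨v, hv⟩ := Infinite.exists_notMem_finset ({v₀} : Finset (Place k (FunField c)))
  obtain ⟨a₀, haff, ha₀⟩ := key v (by simpa using hv)
  have ha₀' : gm a₀ ≠ 0 := fun h => ha₀ (by
    show gm a₀ ∈ _
    rw [h]
    exact v.toValuationSubring.mem_nonunits_iff_or.mpr (Or.inl rfl))
  obtain ⟨w, rfl⟩ := exists_place_valuationSubring hx (A := V)
    (fun r => hV ⟨chartHom c W r, RingHom.congr_fun (germHom_chartHom c hgen) r⟩)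
    (fun htop => (V.mem_nonunits_iff_or.mp (hnon' a₀ haff)).elim ha₀' fun h =>
      h (htop ▸ ValuationSubring.mem_top _))
  have hw : w ≠ v₀ := by
    rintro rfl
    obtain ⟨f, hf, hfv⟩ := exists_pole_fn c w
    obtain ⟨a, ha⟩ := exists_section c hgen (f := f) fun u hu => hf u ((hmem u).mp hu)
    exact hfv (ha ▸ hV ⟨a, rfl⟩)
  obtain ⟨a, haff', ha⟩ := key w hw
  exact ha (hnon' a haff')

omit [IsAlgClosed k] [SmoothOfRelativeDimension 1 c] in
theorem finiteType_chart (ch : Chart C) :
    letI := (chartHom c ch.U).toAlgebra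
    Algebra.FiniteType k Γ(C, ch.U) := by
  show (chartHom c ch.U).FiniteType
  rw [chartHom, CommRingCat.hom_comp, RingHom.finiteType_respectsIso.cancel_left_isIso]
  exact c.finiteType_appLE (isAffineOpen_top _) ch.affine _

include c in
/-- Rings of affine opens are Dedekind domains. -/
theorem isDedekindDomain_chart (ch : Chart C) : IsDedekindDomain Γ(C, ch.U) := by
  have := ch.isDomain
  let := (chartHom c ch.U).toAlgebra
  have : Algebra.FiniteType k Γ(C, ch.U) := finiteType_chart c ch
  haveI : IsNoetherianRing Γ(C, ch.U) := Algebra.FiniteType.isNoetherianRing k _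
  haveI : Ring.DimensionLEOne Γ(C, ch.U) := ⟨fun {P} hP hPp => by
    haveI := hPp
    obtain ⟨v, h, rfl⟩ := exists_center_of_prime c ch P hP
    exact center_isMaximal c h⟩
  letI : Algebra Γ(C, ch.U) (FunField c) := (germF c ch).toAlgebra
  haveI : IsFractionRing Γ(C, ch.U) (FunField c) := ch.isFractionRing
  haveI : IsIntegrallyClosed Γ(C, ch.U) := by
    refine (isIntegrallyClosed_iff (FunField c)).mpr fun {f} hf => exists_germF_eq c ch fun v hv => ?_
    letI : Algebra Γ(C, ch.U) v.toValuationSubring :=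
      ((germF c ch).codRestrict _ (center_spec c hv).1).toAlgebra
    haveI : IsScalarTower Γ(C, ch.U) v.toValuationSubring (FunField c) :=
      IsScalarTower.of_algebraMap_eq fun _ => rfl
    obtain ⟨z, hz⟩ := IsIntegrallyClosed.isIntegral_iff.mp (hf.tower_top (A := v.toValuationSubring))
    exact hz ▸ z.2
  haveI : IsDedekindRing Γ(C, ch.U) := {}
  exact {}

end Fermat.Agent.Jac.FromCurve
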